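import Fermat.Agent.TWGroup.Core
import Mathlib.LinearAlgebra.Matrix.Charpoly.Coeff
import Mathlib.LinearAlgebra.Matrix.ToLinearEquiv
import Mathlib.FieldTheory.IsAlgClosed.Basic

/-!
# Spanning from the absence of lines stable under a subgroup of index at most two
-/

set_option autoImplicit false

namespace Fermat.Agent.TWGroup

open Matrix

variable {K : Type*} [Field K]

/-- `v` is an eigenvector of `A` (or zero). -/
def FixesLine (A : Matrix (Fin 2) (Fin 2) K) (v : Fin 2 → K) : Prop := ∃ a : K, A *ᵥ v = a • v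

/-- The determinant of two plane vectors. -/
def cross (v y : Fin 2 → K) : K := v 0 * y 1 - v 1 * y 0

theorem exists_smul_of_cross_eq_zero {v y : Fin 2 → K} (hv : v ≠ 0) (h : cross v y = 0) :
    ∃ a : K, y = a • v := by
  rw [cross, sub_eq_zero] at h
  by_cases h0 : v 0 = 0
  · have h1 : v 1 ≠ 0 := fun h1 => hv (by ext i; fin_cases i <;> assumption)
    refine ⟨y 1 / v 1, ?_⟩
    have hy : y 0 = 0 := (mul_eq_zero.1 (show v 1 * y 0 = 0 by rw [← h, h0, zero_mul])).resolve_left h1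
    ext i
    fin_cases i <;> simp [h0, hy, h1]
  · refine ⟨y 0 / v 0, ?_⟩
    ext i
    fin_cases i <;> simp [h0]
    field_simp
    linear_combination h

theorem cross_mulVec (A : Matrix (Fin 2) (Fin 2) K) (v y : Fin 2 → K) :
    cross (A *ᵥ v) (A *ᵥ y) = det A * cross v y := by
  simp [cross, Matrix.mulVec, dotProduct, Fin.sum_univ_two, Matrix.det_fin_two]
  ring

theorem eq_zero_of_mulVec_eq_zero {A : Matrix (Fin 2) (Fin 2) K} {v y : Fin 2 → K}
    (hvy : cross v y ≠ 0) (hv : A *ᵥ v = 0) (hy : A *ᵥ y = 0) : A = 0 := by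
  ext i j
  have a := congr_fun hv i
  have b := congr_fun hy i
  simp [Matrix.mulVec, dotProduct, Fin.sum_univ_two] at a b
  refine (mul_eq_zero.1 (show cross v y * A i j = 0 from ?_)).resolve_left hvy
  fin_cases j <;> simp [cross, -mul_eq_zero]
  · linear_combination (y 1) * a - (v 1) * b
  · linear_combination (v 0) * b - (y 0) * a

theorem exists_smul_of_mulVec_eq_zero {A : Matrix (Fin 2) (Fin 2) K} {v y : Fin 2 → K}
    (hA : A ≠ 0) (hv0 : v ≠ 0) (hv : A *ᵥ v = 0) (hy : A *ᵥ y = 0) : ∃ a : K, y = a • v :=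
  exists_smul_of_cross_eq_zero hv0 (by_contra fun h => hA (eq_zero_of_mulVec_eq_zero h hv hy))

theorem exists_eigenvector [IsAlgClosed K] (A : Matrix (Fin 2) (Fin 2) K) :
    ∃ (a : K) (v : Fin 2 → K), v ≠ 0 ∧ (A - a • (1 : Matrix (Fin 2) (Fin 2) K)) *ᵥ v = 0 := by
  obtain ⟨a, ha⟩ := IsAlgClosed.exists_root A.charpoly
    (by rw [A.charpoly_degree_eq_dim]; simp)
  refine ⟨a, Matrix.exists_mulVec_eq_zero_iff.2 ?_⟩
  rw [Polynomial.IsRoot, Matrix.eval_charpoly] at ha
  have : A - a • (1 : Matrix (Fin 2) (Fin 2) K) = -(Matrix.scalar (Fin 2) a - A) := by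
    rw [Matrix.scalar_apply, Matrix.smul_one_eq_diagonal]; abel
  rw [this, Matrix.det_neg, ha, mul_zero]

variable {G : Type*} [Group G] {R : G →* Matrix (Fin 2) (Fin 2) K} {H : Subgroup G}

theorem mulVec_injective (R : G →* Matrix (Fin 2) (Fin 2) K) (g : G) :
    Function.Injective (R g *ᵥ ·) :=
  Matrix.mulVec_injective_iff_isUnit.2 ((Matrix.isUnit_iff_isUnit_det _).2 (isUnit_det_map R g))

theorem mulVec_ne_zero (R : G →* Matrix (Fin 2) (Fin 2) K) (g : G) {v : Fin 2 → K} (hv : v ≠ 0) :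
    R g *ᵥ v ≠ 0 :=
  fun h => hv (mulVec_injective R g (show R g *ᵥ v = R g *ᵥ 0 by rw [h, Matrix.mulVec_zero]))

theorem exists_common_eigenvector_of_det_eq_zero {X : Matrix (Fin 2) (Fin 2) K}
    (hdetX : det X = 0) (hX0 : X ≠ 0) (hX : ∀ h ∈ H, trace (X * R h) = 0) :
    ∃ v, v ≠ 0 ∧ ∀ h ∈ H, FixesLine (R h) v := by
  obtain ⟨w, hw⟩ : ∃ w, X *ᵥ w ≠ 0 := by
    by_contra hcon
    refine hX0 (Matrix.ext fun i j => ?_)
    have := congr_fun (not_not.1 (not_exists.1 hcon (Pi.single j 1))) i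
    simpa [Matrix.mulVec, dotProduct, Pi.single_apply] using this
  have hXRX : ∀ h ∈ H, X * R h * X = 0 := by
    intro h hh
    have ht := hX h hh
    simp [Matrix.trace_fin_two, Matrix.mul_apply, Fin.sum_univ_two] at ht
    rw [Matrix.det_fin_two] at hdetX
    ext i j
    fin_cases i <;> fin_cases j <;> simp [Matrix.mul_apply, Fin.sum_univ_two]
    · linear_combination (X 0 0) * ht - (R h 1 1) * hdetX
    · linear_combination (X 0 1) * ht + (R h 0 1) * hdetX
    · linear_combination (X 1 0) * ht + (R h 1 0) * hdetX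
    · linear_combination (X 1 1) * ht - (R h 0 0) * hdetX
  refine ⟨X *ᵥ w, hw, fun h hh => ?_⟩
  exact exists_smul_of_mulVec_eq_zero hX0 hw
    (by rw [Matrix.mulVec_mulVec, show X * X = 0 by simpa using hXRX 1 (one_mem H),
      Matrix.zero_mulVec])
    (by rw [Matrix.mulVec_mulVec, Matrix.mulVec_mulVec, hXRX h hh, Matrix.zero_mulVec])

theorem exists_common_eigenvector [IsAlgClosed K]
    {X : Matrix (Fin 2) (Fin 2) K} (hX0 : X ≠ 0) (hX : ∀ h ∈ H, trace (X * R h) = 0) :
    ∃ v, v ≠ 0 ∧ ∀ h ∈ H, FixesLine (R h) v := by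
  by_cases hdetX : det X = 0
  · exact exists_common_eigenvector_of_det_eq_zero hdetX hX0 hX
  by_cases hsc : ∀ h ∈ H, ∃ a : K, R h = a • 1
  · refine ⟨![1, 0], fun h0 => by simpa using congr_fun h0 0, fun h hh => ?_⟩
    obtain ⟨a, ha⟩ := hsc h hh
    exact ⟨a, by rw [ha, Matrix.smul_mulVec, Matrix.one_mulVec]⟩
  obtain ⟨h₀, hh₀, hns⟩ : ∃ h₀ ∈ H, ∀ a : K, R h₀ ≠ a • 1 := by
    by_contra hcon
    exact hsc fun h hh => by_contra fun hn => hcon ⟨h, hh, fun a ha => hn ⟨a, ha⟩⟩
  obtain ⟨a, u, hu, hau⟩ := exists_eigenvector (R h₀)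
  -- replace `X` by a singular element of the orthogonal
  set X' := X * (R h₀ - a • (1 : Matrix (Fin 2) (Fin 2) K)) with hX'
  have hdet' : det X' = 0 := by
    rw [hX', det_mul, Matrix.exists_mulVec_eq_zero_iff.1 ⟨u, hu, hau⟩, mul_zero]
  have hX'0 : X' ≠ 0 := fun h0 => hns a (sub_eq_zero.1 (by
    have : X.adjugate * X' = 0 := by rw [h0, mul_zero]
    rw [hX', ← mul_assoc, Matrix.adjugate_mul, smul_mul_assoc, one_mul] at this
    exact (smul_eq_zero.1 this).resolve_left hdetX))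
  have hX't : ∀ h ∈ H, trace (X' * R h) = 0 := fun h hh => by
    rw [hX', mul_assoc, sub_mul, mul_sub, trace_sub, ← map_mul, hX _ (mul_mem hh₀ hh),
      smul_mul_assoc, one_mul, mul_smul_comm, trace_smul, hX h hh, smul_zero, sub_zero]
  exact exists_common_eigenvector_of_det_eq_zero hdet' hX'0 hX't

/-- If no line is stable under a subgroup of index at most two, a normal subgroup with abelian
quotient and trivial determinant spans the matrix algebra. -/
theorem traceSpans_of_isAlgClosed [IsAlgClosed K] [H.Normal]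
    (hcomm : ∀ a b : G, a * b * a⁻¹ * b⁻¹ ∈ H) (hdet : ∀ h ∈ H, det (R h) = 1)
    (hirr : ∀ v : Fin 2 → K, v ≠ 0 → ∃ a b : G,
      ¬FixesLine (R a) v ∧ ¬FixesLine (R b) v ∧ ¬FixesLine (R (a * b)) v) :
    TraceSpans R H := by
  by_contra hns
  obtain ⟨X, hX, hX0⟩ : ∃ X, (∀ h ∈ H, trace (X * R h) = 0) ∧ X ≠ 0 := by
    by_contra hcon
    exact hns fun X hX => by_contra fun h0 => hcon ⟨X, hX, h0⟩
  obtain ⟨v, hv, hvH⟩ := exists_common_eigenvector hX0 hX
  by_cases hsc : ∀ h ∈ H, ∃ a : K, R h = a • 1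
  · obtain ⟨g₁, hg₁⟩ : ∃ g₁, ∀ a : K, R g₁ ≠ a • 1 := by
      obtain ⟨a, b, ha, -⟩ := hirr v hv
      exact ⟨a, fun c hc => ha ⟨c, by rw [hc, Matrix.smul_mulVec, Matrix.one_mulVec]⟩⟩
    obtain ⟨l, u, hu, hlu⟩ := exists_eigenvector (R g₁)
    have hne : R g₁ - l • (1 : Matrix (Fin 2) (Fin 2) K) ≠ 0 :=
      fun h => hg₁ l (sub_eq_zero.1 h)
    have hlu' : R g₁ *ᵥ u = l • u := by
      rwa [Matrix.sub_mulVec, Matrix.smul_mulVec, Matrix.one_mulVec, sub_eq_zero] at hlu
    -- `R g₁` maps `R g u` to `± l • R g u`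
    have key : ∀ g, ¬FixesLine (R g) u → R g₁ * R g = (-1 : K) • (R g * R g₁) := by
      intro g hg
      obtain ⟨s, hs⟩ := hsc _ (hcomm g₁ g)
      have hs1 : s * s = 1 := by
        have := hdet _ (hcomm g₁ g)
        rw [hs, Matrix.det_smul, det_one, mul_one, Fintype.card_fin] at this
        linear_combination this
      have hrel : R g₁ * R g = s • (R g * R g₁) := by
        rw [show s • (R g * R g₁) = (s • (1 : Matrix (Fin 2) (Fin 2) K)) * (R g * R g₁) by
          rw [smul_mul_assoc, one_mul], ← hs]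
        simp only [← map_mul]
        congr 1
        group
      rcases mul_self_eq_one_iff.1 hs1 with rfl | rfl
      · refine absurd (exists_smul_of_mulVec_eq_zero hne hu hlu ?_) hg
        rw [Matrix.mulVec_mulVec, sub_mul, hrel, one_smul, smul_mul_assoc, one_mul,
          Matrix.sub_mulVec, ← Matrix.mulVec_mulVec, hlu', Matrix.mulVec_smul, Matrix.smul_mulVec,
          sub_self]
      · exact hrel
    obtain ⟨a, b, ha, hb, hab⟩ := hirr u hu
    refine hab (exists_smul_of_mulVec_eq_zero hne hu hlu ?_)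
    rw [Matrix.mulVec_mulVec, map_mul, sub_mul, ← mul_assoc, key a ha, smul_mul_assoc,
      mul_assoc (R a), key b hb, mul_smul_comm, smul_smul, neg_one_mul, neg_neg, one_smul,
      smul_mul_assoc, one_mul, Matrix.sub_mulVec, ← mul_assoc, ← Matrix.mulVec_mulVec, hlu',
      Matrix.mulVec_smul, Matrix.smul_mulVec, sub_self]
  refine hsc fun h hh => ?_
  obtain ⟨a, b, ha, hb, hab⟩ := hirr v hv
  have htrans : ∀ g : G, FixesLine (R h) (R g *ᵥ v) := fun g => by
    obtain ⟨c, hc⟩ := hvH (g⁻¹ * h * g)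
      (by simpa using Subgroup.Normal.conj_mem inferInstance h hh g⁻¹)
    refine ⟨c, ?_⟩
    rw [Matrix.mulVec_mulVec, ← map_mul, show h * g = g * (g⁻¹ * h * g) by group, map_mul,
      ← Matrix.mulVec_mulVec, hc, Matrix.mulVec_smul]
  obtain ⟨x, hx⟩ := hvH h hh
  obtain ⟨y, hy⟩ := htrans a
  obtain ⟨z, hz⟩ := htrans (a * b)
  have c1 : cross v (R a *ᵥ v) ≠ 0 := fun h0 => ha (exists_smul_of_cross_eq_zero hv h0)
  have c2 : cross v (R (a * b) *ᵥ v) ≠ 0 := fun h0 => hab (exists_smul_of_cross_eq_zero hv h0)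
  have c3 : cross (R a *ᵥ v) (R (a * b) *ᵥ v) ≠ 0 := fun h0 => hb (by
    rw [map_mul, ← Matrix.mulVec_mulVec, cross_mulVec] at h0
    exact exists_smul_of_cross_eq_zero hv
      ((mul_eq_zero.1 h0).resolve_left (isUnit_det_map R a).ne_zero))
  have key : ∀ (u w : Fin 2 → K) (c d : K), cross u w ≠ 0 → R h *ᵥ u = c • u →
      R h *ᵥ w = d • w → c * d = 1 := by
    intro u w c d huw hu hw
    have := cross_mulVec (R h) u w
    rw [hu, hw, hdet h hh, one_mul] at this
    refine mul_right_cancel₀ huw ?_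
    rw [one_mul]
    simp [cross] at this ⊢
    linear_combination this
  have e1 := key _ _ _ _ c1 hx hy
  have e2 := key _ _ _ _ c2 hx hz
  have e3 := key _ _ _ _ c3 hy hz
  have hx0 : x ≠ 0 := left_ne_zero_of_mul_eq_one e1
  have hyz : y = z := mul_left_cancel₀ hx0 (e1.trans e2.symm)
  have hxy : x = y := mul_right_cancel₀ (right_ne_zero_of_mul_eq_one e3) (e2.trans e3.symm)
  refine ⟨x, sub_eq_zero.1 (eq_zero_of_mulVec_eq_zero c1 ?_ ?_)⟩
  · rw [Matrix.sub_mulVec, Matrix.smul_mulVec, Matrix.one_mulVec, hx, sub_self]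
  · rw [Matrix.sub_mulVec, Matrix.smul_mulVec, Matrix.one_mulVec, hy, hxy, sub_self]

/-- Descent of spanning along a field extension. -/
theorem TraceSpans.of_map {k : Type*} [Field k] (φ : k →+* K)
    {R : G →* Matrix (Fin 2) (Fin 2) k}
    (h : TraceSpans ((φ.mapMatrix : Matrix (Fin 2) (Fin 2) k →+* _).toMonoidHom.comp R) H) :
    TraceSpans R H := by
  intro X hX
  have h0 := h (φ.mapMatrix X) fun g hg => by
    rw [show ((φ.mapMatrix : Matrix (Fin 2) (Fin 2) k →+* _).toMonoidHom.comp R) g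
      = φ.mapMatrix (R g) from rfl, ← map_mul, RingHom.mapMatrix_apply, ← AddMonoidHom.map_trace φ,
      hX g hg, map_zero]
  ext i j
  exact φ.injective (by simpa using congr_fun (congr_fun h0 i) j)

/-- A spanning subgroup contains an element with distinct eigenvalues. -/
theorem exists_trace_ne {k : Type*} [Field k] (p : ℕ) [Fact p.Prime] [CharP k p] (hp : p ≠ 2)
    {R : G →* Matrix (Fin 2) (Fin 2) k} (hspan : TraceSpans R H)
    (hdet : ∀ h ∈ H, det (R h) = 1) :
    ∃ h ∈ H, trace (R h) ≠ 2 ∧ trace (R h) ≠ -2 := by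
  have h2ne : (2 : k) ≠ 0 := by
    have := natCast_ne_of_lt (k := k) p
      (lt_of_le_of_ne (Fact.out : p.Prime).two_le (Ne.symm hp)) (Fact.out : p.Prime).pos
      two_ne_zero
    exact_mod_cast this
  by_contra hcon
  have hall : ∀ h ∈ H, trace (R h) = 2 ∨ trace (R h) = -2 := fun h hh => by
    by_contra hne
    exact hcon ⟨h, hh, fun e => hne (.inl e), fun e => hne (.inr e)⟩
  obtain ⟨s, hs, hs2, hN⟩ : ∃ s ∈ H, trace (R s) = 2 ∧ R s - 1 ≠ 0 := by
    by_contra hcon'
    have h1 : ∀ h ∈ H, trace (R h) = 2 → R h = 1 := fun h hh he =>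
      sub_eq_zero.1 (by_contra fun hne => hcon' ⟨h, hh, he, hne⟩)
    have hscal : ∀ h ∈ H, ∃ a : k, R h = a • 1 := fun h hh => by
      rcases hall h hh with he | he
      · exact ⟨1, by rw [one_smul, h1 h hh he]⟩
      · refine ⟨-1, ?_⟩
        have hA := mul_self_of_det_one (hdet h hh)
        have ht : trace (R (h * h)) = 2 := by
          rw [map_mul, hA, trace_sub, trace_smul, smul_eq_mul, trace_one, he]
          norm_num [Fintype.card_fin]
        rw [← map_mul, h1 _ (mul_mem hh hh) ht, he] at hA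
        refine smul_right_injective _ h2ne ?_
        simp only [smul_smul]
        linear_combination (norm := module) hA
    have hzero := hspan (Matrix.single 0 1 1) fun h hh => by
      obtain ⟨a, ha⟩ := hscal h hh
      rw [ha, mul_smul_comm, mul_one, trace_smul]
      simp [Matrix.trace_fin_two, Matrix.single]
    simpa [Matrix.single] using congr_fun (congr_fun hzero 0) 1
  obtain ⟨t, ht, hx⟩ : ∃ t ∈ H, trace ((R s - 1) * R t) ≠ 0 := by
    by_contra hcon'
    exact hN (hspan _ fun h hh => by_contra fun hne => hcon' ⟨h, hh, hne⟩)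
  rw [sub_mul, one_mul, trace_sub, ← map_mul] at hx
  have hT := fun j : ℕ => hall _ (mul_mem (pow_mem hs j) ht)
  simp only [trace_pow_mul hdet hs hs2] at hT
  rcases hT 0 with a | a <;> rcases hT 1 with b | b <;> rcases hT 2 with d | d <;>
    push_cast at a b d
  all_goals
    first
    | exact hx (by linear_combination b - a)
    | exact hx (by linear_combination d - b)
    | exact hx ((mul_eq_zero.1 (show (2 : k) * (trace (R (s * t)) - trace (R t)) = 0 by
        linear_combination d - a)).resolve_left h2ne)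

end Fermat.Agent.TWGroup
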