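import Mathlib.LinearAlgebra.Matrix.Trace
import Mathlib.LinearAlgebra.Matrix.Adjugate
import Mathlib.LinearAlgebra.Matrix.NonsingularInverse
import Mathlib.LinearAlgebra.Finsupp.LinearCombination
import Mathlib.Algebra.Polynomial.Roots
import Mathlib.Algebra.CharP.Lemmas
import Mathlib.Algebra.CharP.Basic
import Mathlib.LinearAlgebra.Dual.Lemmas
import Mathlib.Tactic.LinearCombination
import Mathlib.Tactic.Module
import Mathlib.Tactic.FinCases

/-!
# The Taylor–Wiles cocycle lemma

Let `R : G →* M₂(k)`, let `H` be a normal subgroup on which `det R = 1` and whose image spans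
`M₂(k)`, and let `c` be a cocycle with values in trace zero matrices for the action
`g • X = R g * X * adjugate (R g)` (the adjoint action twisted by `det`).
If `trace (c s * R s) = 0` whenever `s ∈ H` has `trace (R s) ≠ ±2`, then `c` is a coboundary.

The proof uses only that `f s = trace (c s * R s)`, the derivative of the trace, satisfies
`f (s * t) + f (s⁻¹ * t) = f s * trace (R t) + trace (R s) * f t` on `H`; no classification of
subgroups of `GL₂` is needed.
-/

set_option autoImplicit false

namespace Fermat.Agent.TWGroup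

open Matrix

variable {k : Type*} [Field k] {G : Type*} [Group G]

/-- `A • X = A X adj(A)`: the adjoint action twisted by the determinant. -/
def twAct (A X : Matrix (Fin 2) (Fin 2) k) : Matrix (Fin 2) (Fin 2) k := A * X * A.adjugate

/-- Cocycles for `twAct`. -/
def IsTWCocycle (R : G →* Matrix (Fin 2) (Fin 2) k) (c : G → Matrix (Fin 2) (Fin 2) k) : Prop :=
  ∀ g h, c (g * h) = c g + twAct (R g) (c h)

/-- The image of `H` spans all of `M₂(k)`, stated through the trace form. -/
def TraceSpans (R : G →* Matrix (Fin 2) (Fin 2) k) (H : Subgroup G) : Prop :=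
  ∀ X : Matrix (Fin 2) (Fin 2) k, (∀ h ∈ H, trace (X * R h) = 0) → X = 0

/-- The derivative of the trace along the cocycle. -/
def traceDeriv (R : G →* Matrix (Fin 2) (Fin 2) k) (c : G → Matrix (Fin 2) (Fin 2) k) (g : G) : k :=
  trace (c g * R g)

section Matrices

variable {A N M X : Matrix (Fin 2) (Fin 2) k}

theorem adjugate_eq_trace_sub (A : Matrix (Fin 2) (Fin 2) k) :
    A.adjugate = trace A • (1 : Matrix (Fin 2) (Fin 2) k) - A := by
  ext i j
  fin_cases i <;> fin_cases j <;> simp [Matrix.adjugate_fin_two, Matrix.trace_fin_two]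

theorem polarised_cayley_hamilton (hX : trace X = 0) :
    X * A + A * X = trace A • X + trace (X * A) • (1 : Matrix (Fin 2) (Fin 2) k) := by
  rw [Matrix.trace_fin_two] at hX
  have hX' : X 1 1 = -X 0 0 := by linear_combination hX
  ext i j
  fin_cases i <;> fin_cases j <;>
    simp [Matrix.mul_apply, Fin.sum_univ_two, Matrix.trace_fin_two, hX'] <;> ring

theorem mul_self_of_det_one (hA : det A = 1) :
    A * A = trace A • A - (1 : Matrix (Fin 2) (Fin 2) k) := by
  rw [Matrix.det_fin_two] at hA
  ext i j
  fin_cases i <;> fin_cases j <;>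
    simp [Matrix.mul_apply, Fin.sum_univ_two, Matrix.trace_fin_two] <;>
      first | linear_combination hA | linear_combination -hA | ring

theorem nilpotent_mul_eq_zero (hN : trace N = 0) (hN2 : N * N = 0) (hM : trace M = 0)
    (hM2 : M * M = 0) (h : trace (N * M) = 0) : N * M = 0 := by
  rw [Matrix.trace_fin_two] at hN hM
  have hN' : N 1 1 = -N 0 0 := by linear_combination hN
  have hM' : M 1 1 = -M 0 0 := by linear_combination hM
  have n0 := congr_fun (congr_fun hN2 0) 0
  have m0 := congr_fun (congr_fun hM2 0) 0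
  simp [Matrix.mul_apply, Fin.sum_univ_two] at n0 m0
  simp [Matrix.trace_fin_two, Matrix.mul_apply, Fin.sum_univ_two, hN', hM'] at h
  set a := N 0 0; set b := N 0 1; set c := N 1 0
  set a' := M 0 0; set b' := M 0 1; set c' := M 1 0
  have e1 : (a * b' - b * a') = 0 := by
    refine pow_eq_zero_iff (two_ne_zero) |>.1 ?_
    linear_combination b' ^ 2 * n0 + b ^ 2 * m0 - b * b' * h
  have e2 : (c * a' - a * c') = 0 := by
    refine pow_eq_zero_iff (two_ne_zero) |>.1 ?_
    linear_combination c' ^ 2 * n0 + c ^ 2 * m0 - c * c' * h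
  have e3 : (a * a' + b * c') * (a * a' + b * c') = 0 := by
    linear_combination (a' * a' + 0) * n0 + b * c' * h - b * c * m0
  have e3' := mul_self_eq_zero.1 e3
  have e4 : (c * b' + a * a') = 0 := by linear_combination h - e3'
  ext i j
  fin_cases i <;> fin_cases j <;> simp [Matrix.mul_apply, Fin.sum_univ_two, hN', hM']
  · exact e3'
  · linear_combination e1
  · linear_combination e2
  · linear_combination e4

theorem trace_twAct (A X : Matrix (Fin 2) (Fin 2) k) :
    trace (twAct A X) = det A * trace X := by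
  rw [twAct, Matrix.trace_mul_comm, ← mul_assoc, Matrix.adjugate_mul]
  simp

theorem twAct_sub (A X Y : Matrix (Fin 2) (Fin 2) k) :
    twAct A (X - Y) = twAct A X - twAct A Y := by
  simp [twAct, mul_sub, sub_mul]

theorem twAct_mul (A B X : Matrix (Fin 2) (Fin 2) k) :
    twAct (A * B) X = twAct A (twAct B X) := by
  simp [twAct, Matrix.adjugate_mul_distrib, mul_assoc]

theorem twAct_one (X : Matrix (Fin 2) (Fin 2) k) : twAct 1 X = X := by simp [twAct]

/-- A derivation of `M₂(k)` is inner. -/
theorem exists_inner_of_derivation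
    (D : Matrix (Fin 2) (Fin 2) k →ₗ[k] Matrix (Fin 2) (Fin 2) k)
    (hD : ∀ A B, D (A * B) = D A * B + A * D B) : ∃ T, ∀ A, D A = T * A - A * T := by
  let e : Fin 2 → Fin 2 → Matrix (Fin 2) (Fin 2) k := fun i j => Matrix.single i j 1
  refine ⟨D (e 0 0) * e 0 0 + D (e 1 0) * e 0 1, fun A => ?_⟩
  have hr : ∀ i, A * e i 0 = A 0 i • e 0 0 + A 1 i • e 1 0 := fun i => by
    ext a b; fin_cases a <;> fin_cases b <;> fin_cases i <;>
      simp [e, Matrix.mul_apply, Matrix.single]
  have hl : ∀ j, e 0 j * A = A j 0 • e 0 0 + A j 1 • e 0 1 := fun j => by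
    ext a b; fin_cases a <;> fin_cases b <;> fin_cases j <;>
      simp [e, Matrix.mul_apply, Matrix.single]
  have h1 : e 0 0 * e 0 0 + e 1 0 * e 0 1 = (1 : Matrix (Fin 2) (Fin 2) k) := by
    ext a b; fin_cases a <;> fin_cases b <;>
      simp [e, Matrix.mul_apply, Matrix.single]
  have h := fun i => congrArg (fun Z => Z * e 0 i) (hD A (e i 0))
  have h0 := h 0
  have h1' := h 1
  simp only [hr, map_add, map_smul, add_mul, smul_mul_assoc, mul_assoc] at h0 h1'
  calc D A = D A * (e 0 0 * e 0 0 + e 1 0 * e 0 1) := by rw [h1, mul_one]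
    _ = (A 0 0 • (D (e 0 0) * e 0 0) + A 1 0 • (D (e 1 0) * e 0 0)
          + (A 0 1 • (D (e 0 0) * e 0 1) + A 1 1 • (D (e 1 0) * e 0 1)))
          - A * (D (e 0 0) * e 0 0 + D (e 1 0) * e 0 1) := by
      rw [h0, h1']
      simp only [mul_add]
      abel
    _ = _ := by
      congr 1
      simp only [add_mul, mul_assoc, hl, mul_add, mul_smul_comm]
      abel

end Matrices

section Group

variable {R : G →* Matrix (Fin 2) (Fin 2) k} {c : G → Matrix (Fin 2) (Fin 2) k} {H : Subgroup G}

theorem isUnit_det_map (R : G →* Matrix (Fin 2) (Fin 2) k) (g : G) : IsUnit (det (R g)) := by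
  refine IsUnit.of_mul_eq_one (det (R g⁻¹)) ?_
  rw [← det_mul, ← map_mul, mul_inv_cancel, map_one, det_one]

theorem map_inv_of_det_one {g : G} (hg : det (R g) = 1) : R g⁻¹ = (R g).adjugate := by
  have h : R g * R g⁻¹ = 1 := by rw [← map_mul, mul_inv_cancel, map_one]
  calc R g⁻¹ = ((R g).adjugate * R g) * R g⁻¹ := by rw [Matrix.adjugate_mul, hg, one_smul, one_mul]
    _ = (R g).adjugate := by rw [mul_assoc, h, mul_one]

theorem IsTWCocycle.map_one (hc : IsTWCocycle R c) : c 1 = 0 := by
  have h := hc 1 1
  rw [one_mul, _root_.map_one, twAct_one] at h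
  exact left_eq_add.1 h

theorem traceDeriv_one (hc : IsTWCocycle R c) : traceDeriv R c 1 = 0 := by
  simp [traceDeriv, hc.map_one]

/-- The derivative of `trace (AB) + trace (A⁻¹B) = trace A * trace B`. -/
theorem traceDeriv_mul_add (hc : IsTWCocycle R c) (htr : ∀ g, trace (c g) = 0)
    (hdet : ∀ h ∈ H, det (R h) = 1) {s t : G} (hs : s ∈ H) :
    traceDeriv R c (s * t) + traceDeriv R c (s⁻¹ * t) =
      traceDeriv R c s * trace (R t) + trace (R s) * traceDeriv R c t := by
  set A := R s
  set B := R t
  set C := c s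
  set Y := c t
  have hA' : R s⁻¹ = A.adjugate := map_inv_of_det_one (hdet s hs)
  have h1 : A * A.adjugate = 1 := by rw [Matrix.mul_adjugate, hdet s hs, one_smul]
  have h2 : A.adjugate * A = 1 := by rw [Matrix.adjugate_mul, hdet s hs, one_smul]
  have hAA : A.adjugate.adjugate = A := by rw [Matrix.adjugate_adjugate']; simp
  have hinv : c s⁻¹ * A.adjugate = -(A.adjugate * C) := by
    have h := hc s s⁻¹
    rw [mul_inv_cancel, hc.map_one, twAct] at h
    have h' : A * c s⁻¹ * A.adjugate = -C := eq_neg_of_add_eq_zero_right h.symm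
    calc c s⁻¹ * A.adjugate = (A.adjugate * A) * c s⁻¹ * A.adjugate := by rw [h2, one_mul]
      _ = A.adjugate * (A * c s⁻¹ * A.adjugate) := by simp only [mul_assoc]
      _ = -(A.adjugate * C) := by rw [h', mul_neg]
  have e1 : traceDeriv R c (s * t) = trace (C * A * B) + trace (A * Y * B) := by
    rw [traceDeriv, hc, map_mul, twAct, add_mul, trace_add, ← mul_assoc C,
      show A * Y * A.adjugate * (A * B) = A * Y * (A.adjugate * A) * B by simp only [mul_assoc],
      h2, mul_one]
  have e2 : traceDeriv R c (s⁻¹ * t) =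
      trace (A.adjugate * Y * B) - trace (A.adjugate * C * B) := by
    rw [traceDeriv, hc, map_mul, twAct, hA', hAA, add_mul, trace_add, ← mul_assoc (c s⁻¹), hinv,
      show A.adjugate * Y * A * (A.adjugate * B) = A.adjugate * Y * (A * A.adjugate) * B by
        simp only [mul_assoc],
      h1, mul_one, neg_mul, trace_neg]
    ring
  rw [e1, e2, traceDeriv, traceDeriv]
  have h3 := congrArg (fun Z => trace (Z * B)) (polarised_cayley_hamilton (A := A) (htr s))
  simp only [add_mul, trace_add, smul_mul_assoc, trace_smul, one_mul, smul_eq_mul] at h3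
  simp only [adjugate_eq_trace_sub A, sub_mul, smul_mul_assoc, one_mul, trace_sub, trace_smul,
    smul_eq_mul]
  linear_combination h3

/-- Conjugation multiplies the derivative of the trace by the determinant. -/
theorem traceDeriv_conj (hc : IsTWCocycle R c) (hdet : ∀ h ∈ H, det (R h) = 1) [H.Normal]
    (g : G) {s : G} (hs : s ∈ H) :
    traceDeriv R c (g * s * g⁻¹) = det (R g) * traceDeriv R c s := by
  set s' := g * s * g⁻¹
  have hs' : s' ∈ H := Subgroup.Normal.conj_mem inferInstance s hs g
  have hprod : s' * g = g * s := by simp [s']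
  set A := R g
  set B := R s
  set B' := R s'
  have hB : B' * A = A * B := by rw [← map_mul, hprod, map_mul]
  have h2 : B'.adjugate * B' = 1 := by rw [Matrix.adjugate_mul, hdet s' hs', one_smul]
  have h := hc g s
  rw [← hprod, hc] at h
  have h' : c s' = c g + twAct A (c s) - twAct B' (c g) := eq_sub_of_add_eq h
  rw [traceDeriv, traceDeriv, h', twAct, twAct, sub_mul, add_mul, trace_sub, trace_add]
  change trace (c g * B') + trace (A * c s * A.adjugate * B')
    - trace (B' * c g * B'.adjugate * B') = _
  rw [mul_assoc (B' * c g), h2, mul_one, Matrix.trace_mul_comm B' (c g)]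
  rw [show A * c s * A.adjugate * B' = A * (c s * (A.adjugate * B')) by simp only [mul_assoc],
    Matrix.trace_mul_comm A, show c s * (A.adjugate * B') * A = c s * (A.adjugate * (B' * A)) by
      simp only [mul_assoc], hB, ← mul_assoc A.adjugate, Matrix.adjugate_mul]
  simp [A, B]

variable (hc : IsTWCocycle R c) (htr : ∀ g, trace (c g) = 0)
  (hdet : ∀ h ∈ H, det (R h) = 1)

include hdet in
theorem trace_pow_mul {s t : G} (hs : s ∈ H) (h2 : trace (R s) = 2) (j : ℕ) :
    trace (R (s ^ j * t)) = trace (R t) + j * (trace (R (s * t)) - trace (R t)) := by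
  induction j using Nat.twoStepInduction with
  | zero => simp
  | one => simp
  | more n ih1 ih2 =>
    have hA := congrArg (fun Z => trace (Z * R (s ^ n * t))) (mul_self_of_det_one (hdet s hs))
    simp only [sub_mul, smul_mul_assoc, one_mul, trace_sub, trace_smul, smul_eq_mul,
      ← map_mul, h2] at hA
    rw [show s * s * (s ^ n * t) = s ^ (n + 2) * t by rw [← mul_assoc, ← sq, ← pow_add, add_comm 2],
      show s * (s ^ n * t) = s ^ (n + 1) * t by rw [← mul_assoc, ← pow_succ'],
      ih1, ih2] at hA
    rw [hA]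
    push_cast
    ring

include hc htr hdet in
theorem traceDeriv_pow_mul_succ_succ {s t : G} (hs : s ∈ H) (h2 : trace (R s) = 2) (j : ℕ) :
    traceDeriv R c (s ^ (j + 2) * t) = 2 * traceDeriv R c (s ^ (j + 1) * t)
      - traceDeriv R c (s ^ j * t)
      + traceDeriv R c s * (trace (R t) + (j + 1) * (trace (R (s * t)) - trace (R t))) := by
  have h := traceDeriv_mul_add hc htr hdet (s := s) (t := s ^ (j + 1) * t) hs
  rw [show s * (s ^ (j + 1) * t) = s ^ (j + 2) * t by rw [← mul_assoc, ← pow_succ'],
    show s⁻¹ * (s ^ (j + 1) * t) = s ^ j * t by rw [pow_succ', mul_assoc, inv_mul_cancel_left],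
    trace_pow_mul hdet hs h2, h2] at h
  push_cast at h
  linear_combination h

include hc htr hdet in
theorem six_mul_traceDeriv_pow_mul {s t : G} (hs : s ∈ H) (h2 : trace (R s) = 2) (j : ℕ) :
    6 * traceDeriv R c (s ^ j * t) = 6 * traceDeriv R c t
      + j * (6 * (traceDeriv R c (s * t) - traceDeriv R c t)
          - 3 * traceDeriv R c s * trace (R t))
      + traceDeriv R c s * (3 * trace (R t) * (j : k) ^ 2
          + (trace (R (s * t)) - trace (R t)) * ((j : k) ^ 3 - j)) := by
  induction j using Nat.twoStepInduction with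
  | zero => simp
  | one => simp; ring
  | more n ih1 ih2 =>
    rw [traceDeriv_pow_mul_succ_succ hc htr hdet hs h2]
    push_cast at ih2 ⊢
    linear_combination 2 * ih2 - ih1

variable (p : ℕ) [CharP k p]

theorem natCast_ne_of_lt {a b : ℕ} (ha : a < p) (hb : b < p) (hab : a ≠ b) : (a : k) ≠ b :=
  fun h => hab (CharP.natCast_injOn_Iio k p ha hb h)

include hc htr hdet in
/-- If at least four residues `j` give regular semisimple `s ^ j * t`, the cubic vanishes. -/
theorem traceDeriv_mul_eq_zero_of_card {s t : G} (hs : s ∈ H) (ht : t ∈ H)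
    (h2 : trace (R s) = 2)
    (hf : ∀ h ∈ H, trace (R h) ≠ 2 → trace (R h) ≠ -2 → traceDeriv R c h = 0)
    (S : Finset ℕ) (hSp : ∀ j ∈ S, j < p) (hS : 4 ≤ S.card)
    (hgood : ∀ j ∈ S, trace (R (s ^ j * t)) ≠ 2 ∧ trace (R (s ^ j * t)) ≠ -2) :
    traceDeriv R c s * (trace (R (s * t)) - trace (R t)) = 0 := by
  classical
  set f := traceDeriv R c s
  set τ := trace (R t)
  set x := trace (R (s * t)) - trace (R t)
  set L := 6 * (traceDeriv R c (s * t) - traceDeriv R c t) - 3 * f * τ
  let P : Polynomial k := Polynomial.C (f * x) * Polynomial.X ^ 3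
    + Polynomial.C (3 * f * τ) * Polynomial.X ^ 2 + Polynomial.C (L - f * x) * Polynomial.X
    + Polynomial.C (6 * traceDeriv R c t)
  have hdeg : P.natDegree ≤ 3 := Polynomial.natDegree_cubic_le
  have hP : P = 0 := by
    refine Polynomial.eq_zero_of_natDegree_lt_card_of_eval_eq_zero' P
      (S.image (fun j : ℕ => (j : k))) ?_ ?_
    · intro z hz
      obtain ⟨j, hj, rfl⟩ := Finset.mem_image.1 hz
      have h6 := six_mul_traceDeriv_pow_mul (t := t) hc htr hdet hs h2 j
      rw [hf _ (mul_mem (pow_mem hs j) ht) (hgood j hj).1 (hgood j hj).2, mul_zero] at h6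
      simp only [P, Polynomial.eval_add, Polynomial.eval_mul, Polynomial.eval_C,
        Polynomial.eval_pow, Polynomial.eval_X]
      linear_combination -h6
    · rw [Finset.card_image_of_injOn]
      · omega
      · exact fun a ha b hb h => CharP.natCast_injOn_Iio k p (hSp a ha) (hSp b hb) h
  have h3 := congrArg (fun Q => Polynomial.coeff Q 3) hP
  simpa [P, Polynomial.coeff_X, Polynomial.coeff_C, Polynomial.coeff_C_mul, Polynomial.coeff_X_pow,
    mul_assoc] using h3

include hc htr hdet in
theorem traceDeriv_eq_zero_of_trace_eq_two [Fact p.Prime] [H.Normal] (hp : p ≠ 2) (hspan : TraceSpans R H)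
    (hns : p = 5 → ∃ g, ∀ e : ℕ, det (R g) ≠ (e : k) ^ 2)
    (hf : ∀ h ∈ H, trace (R h) ≠ 2 → trace (R h) ≠ -2 → traceDeriv R c h = 0)
    {s : G} (hs : s ∈ H) (h2 : trace (R s) = 2) : traceDeriv R c s = 0 := by
  classical
  have hprime : p.Prime := Fact.out
  have hlt : ∀ {a : ℕ}, 0 < a → a < p → (a : k) ≠ 0 := fun {a} h0 hap => by
    simpa using natCast_ne_of_lt (k := k) p hap hprime.pos h0.ne'
  have h2ne : (2 : k) ≠ 0 := by
    have := hlt (a := 2) two_pos (lt_of_le_of_ne hprime.two_le (Ne.symm hp))
    exact_mod_cast this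
  set N := R s - 1 with hN
  by_cases hN0 : N = 0
  · rw [traceDeriv, sub_eq_zero.1 hN0, mul_one, htr]
  have hx : ∀ t, trace (R (s * t)) - trace (R t) = trace (N * R t) := fun t => by
    rw [hN, map_mul, sub_mul, one_mul, trace_sub]
  obtain ⟨t, ht, hxt⟩ : ∃ t ∈ H, trace (N * R t) ≠ 0 := by
    by_contra hcon
    exact hN0 (hspan N fun h hh => by_contra fun hne => hcon ⟨h, hh, hne⟩)
  rw [← hx] at hxt
  rcases (Nat.lt_or_ge p 5) with hp5 | hp5
  · -- `p = 3`
    have hp3 : p = 3 := by
      have := hprime.two_le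
      interval_cases p <;> first | rfl | exact absurd rfl hp | exact absurd hprime (by decide)
    subst hp3
    have h30 : (3 : k) = 0 := by exact_mod_cast CharP.cast_eq_zero k 3
    set τ := trace (R t) with hτ
    set x := trace (R (s * t)) - trace (R t) with hxdef
    have hT : ∀ j : ℕ, trace (R (s ^ j * t)) = τ + j * x := trace_pow_mul hdet hs h2
    obtain ⟨j, hj2, hjm2⟩ : ∃ j : ℕ, τ + j * x ≠ 2 ∧ τ + j * x ≠ -2 := by
      by_contra hcon
      have hall : ∀ j : ℕ, τ + j * x = 2 ∨ τ + j * x = -2 := fun j => by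
        by_contra h; exact hcon ⟨j, fun e => h (.inl e), fun e => h (.inr e)⟩
      rcases hall 0 with a | a <;> rcases hall 1 with b | b <;> rcases hall 2 with d | d <;>
        push_cast at a b d
      all_goals
        first
        | exact hxt (by linear_combination b - a)
        | exact hxt (by linear_combination d - b)
        | exact hxt ((mul_eq_zero.1
            (show (2 : k) * x = 0 by linear_combination d - a)).resolve_left h2ne)
    have ht' : s ^ j * t ∈ H := mul_mem (pow_mem hs j) ht
    have hx' : trace (R (s * (s ^ j * t))) - trace (R (s ^ j * t)) = x := by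
      rw [← mul_assoc, ← pow_succ', hT, hT]; push_cast; ring
    have h0 : traceDeriv R c (s ^ j * t) = 0 := hf _ ht' (by rwa [hT]) (by rwa [hT])
    have h3 : traceDeriv R c (s ^ 3 * (s ^ j * t)) = 0 := by
      have hT3 : trace (R (s ^ 3 * (s ^ j * t))) = τ + j * x := by
        rw [trace_pow_mul hdet hs h2, hx', hT]; push_cast; linear_combination x * h30
      exact hf _ (mul_mem (pow_mem hs 3) ht') (by rwa [hT3]) (by rwa [hT3])
    have e2 := traceDeriv_pow_mul_succ_succ (t := s ^ j * t) hc htr hdet hs h2 0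
    have e3 := traceDeriv_pow_mul_succ_succ (t := s ^ j * t) hc htr hdet hs h2 1
    simp only [zero_add, Nat.cast_zero, Nat.cast_one, pow_zero, pow_one, one_mul,
      show 1 + 2 = 3 from rfl, show 1 + 1 = 2 from rfl, hx'] at e2 e3
    rw [h3, e2, h0] at e3
    refine (mul_eq_zero.1 (?_ : traceDeriv R c s * x = 0)).resolve_right hxt
    linear_combination -e3 -
      (traceDeriv R c (s * (s ^ j * t)) + traceDeriv R c s * (trace (R (s ^ j * t)) + x)) * h30
  rcases (Nat.lt_or_ge p 7) with hp7 | hp7
  · -- `p = 5`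
    have hp5' : p = 5 := by interval_cases p <;> first | rfl | exact absurd hprime (by decide)
    subst hp5'
    have h50 : (5 : k) = 0 := by exact_mod_cast CharP.cast_eq_zero k 5
    obtain ⟨g, hg⟩ := hns rfl
    set M := R (g * s * g⁻¹) - 1 with hM
    have hgs : g * s * g⁻¹ ∈ H := Subgroup.Normal.conj_mem inferInstance s hs g
    have htrconj : ∀ a b : G, trace (R (a * b * a⁻¹)) = trace (R b) := fun a b => by
      rw [map_mul, Matrix.trace_mul_comm, ← map_mul, inv_mul_cancel_left]
    have nil : ∀ w ∈ H, trace (R w) = 2 → trace (R w - 1) = 0 ∧ (R w - 1) * (R w - 1) = 0 := by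
      intro w hw hw2
      refine ⟨by rw [trace_sub, hw2, trace_one]; simp, ?_⟩
      rw [sub_mul, mul_sub, mul_one, one_mul, mul_self_of_det_one (hdet w hw), hw2, two_smul]
      abel
    have hM0 : M ≠ 0 := fun h => hN0 (by
      have h1 : R (g * s * g⁻¹) = 1 := sub_eq_zero.1 h
      have hs1 : R s = R g⁻¹ * R (g * s * g⁻¹) * R g := by
        rw [← map_mul, ← map_mul]; congr 1; group
      rw [hN, hs1, h1, mul_one, ← map_mul, inv_mul_cancel, map_one, sub_self])
    obtain ⟨h, hh, hxh⟩ : ∃ h ∈ H,
        trace (N * R ((h * g) * s * (h * g)⁻¹)) ≠ 0 := by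
      by_contra hcon
      have hzero : ∀ h ∈ H, N * R h * M = 0 := by
        intro h hh
        have h0 : trace (N * R ((h * g) * s * (h * g)⁻¹)) = 0 :=
          by_contra fun hne => hcon ⟨h, hh, hne⟩
        set w := (h * g) * s * (h * g)⁻¹
        have hw : w ∈ H := Subgroup.Normal.conj_mem inferInstance s hs _
        have hw2 : trace (R w) = 2 := by rw [htrconj, h2]
        have hNM : N * (R w - 1) = 0 := nilpotent_mul_eq_zero (nil s hs h2).1 (nil s hs h2).2
          (nil w hw hw2).1 (nil w hw hw2).2
          (by rw [mul_sub, mul_one, trace_sub, h0, (nil s hs h2).1, sub_zero])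
        have hwM : (R w - 1) * R h = R h * M := by
          rw [hM, sub_mul, mul_sub, one_mul, mul_one, ← map_mul, ← map_mul]
          congr 2
          simp only [w]; group
        calc N * R h * M = N * (R h * M) := mul_assoc _ _ _
          _ = N * (R w - 1) * R h := by rw [← hwM, mul_assoc]
          _ = 0 := by rw [hNM, zero_mul]
      have hY : ∀ Y, M * Y * N = 0 := fun Y => hspan _ fun h hh => by
        rw [mul_assoc (M * Y), mul_assoc M, Matrix.trace_mul_comm M,
          show Y * (N * R h) * M = Y * (N * R h * M) by simp only [mul_assoc],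
          hzero h hh, mul_zero, trace_zero]
      obtain ⟨a, i, hai⟩ : ∃ a i, M a i ≠ 0 := by
        by_contra hh; exact hM0 (by ext a i; exact by_contra fun hne => hh ⟨a, i, hne⟩)
      obtain ⟨j, b, hjb⟩ : ∃ j b, N j b ≠ 0 := by
        by_contra hh; exact hN0 (by ext a i; exact by_contra fun hne => hh ⟨a, i, hne⟩)
      have := congr_fun (congr_fun (hY (Matrix.single i j 1)) a) b
      simp [Matrix.mul_apply, Matrix.single, Finset.sum_ite_eq, hai, hjb, ite_and] at this
    set w := (h * g) * s * (h * g)⁻¹
    have hw : w ∈ H := Subgroup.Normal.conj_mem inferInstance s hs _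
    have hw2 : trace (R w) = 2 := by rw [htrconj, h2]
    have hfw : traceDeriv R c w = det (R g) * traceDeriv R c s := by
      rw [traceDeriv_conj hc hdet _ hs, map_mul, det_mul, hdet h hh, one_mul]
    rw [← hx] at hxh
    set x := trace (R (s * w)) - trace (R w) with hxdef
    have hT : ∀ j : ℕ, trace (R (s ^ j * w)) = 2 + j * x := fun j => by
      rw [trace_pow_mul hdet hs h2, ← hxdef, hw2]
    by_cases hj : ∃ j : ℕ, j ∈ Finset.Ico 1 5 ∧ 2 + (j : k) * x = -2
    · obtain ⟨j, hj, hjx⟩ := hj
      rw [Finset.mem_Ico] at hj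
      have hne : ∀ a : ℕ, 0 < a → a < 5 → (a : k) ≠ 0 := fun a h0 ha => hlt h0 ha
      have hex : (j : k) * x = 1 := by linear_combination hjx - h50
      have g2 : traceDeriv R c (s ^ (2 * j) * w) = 0 := by
        refine hf _ (mul_mem (pow_mem hs _) hw) ?_ ?_ <;> rw [hT] <;> push_cast <;> intro h'
        · exact hne 2 two_pos (by norm_num) (by push_cast; linear_combination h' - 2 * hex)
        · exact hne 1 one_pos (by norm_num) (by push_cast; linear_combination h' - 2 * hex - h50)
      have g3 : traceDeriv R c (s ^ (3 * j) * w) = 0 := by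
        refine hf _ (mul_mem (pow_mem hs _) hw) ?_ ?_ <;> rw [hT] <;> push_cast <;> intro h'
        · exact hne 3 three_pos (by norm_num) (by push_cast; linear_combination h' - 3 * hex)
        · exact hne 2 two_pos (by norm_num) (by push_cast; linear_combination h' - 3 * hex - h50)
      have e2 := six_mul_traceDeriv_pow_mul (t := w) hc htr hdet hs h2 (2 * j)
      have e3 := six_mul_traceDeriv_pow_mul (t := w) hc htr hdet hs h2 (3 * j)
      rw [g2, mul_zero, ← hxdef, hw2] at e2
      rw [g3, mul_zero, ← hxdef, hw2] at e3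
      push_cast at e2 e3
      have key : (det (R g) - (j : k) ^ 2) * traceDeriv R c s = 0 := by
        linear_combination (-3) * e2 + 2 * e3
          - (6 * 1) * hfw
          + (30 * traceDeriv R c s * (j : k) ^ 2) * hex
          - (traceDeriv R c s * (det (R g) - 13 * (j : k) ^ 2)) * h50
      exact (mul_eq_zero.1 key).resolve_left (sub_ne_zero.2 (hg j))
    · refine (mul_eq_zero.1 (traceDeriv_mul_eq_zero_of_card hc htr hdet 5 hs hw h2 hf
        (Finset.Ico 1 5) (fun j hj => (Finset.mem_Ico.1 hj).2) (by simp) ?_)).resolve_right hxh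
      intro j hj'
      rw [hT]
      refine ⟨fun h' => ?_, fun h' => hj ⟨j, hj', h'⟩⟩
      rw [Finset.mem_Ico] at hj'
      exact (mul_ne_zero (hlt (a := j) (by omega) hj'.2) hxh) (by linear_combination h')
  -- `p ≥ 7`
  set x := trace (R (s * t)) - trace (R t) with hxdef
  have hT : ∀ j : ℕ, trace (R (s ^ j * t)) = trace (R t) + j * x := trace_pow_mul hdet hs h2
  set S := (Finset.range p).filter
    (fun j : ℕ => trace (R t) + (j : k) * x ≠ 2 ∧ trace (R t) + (j : k) * x ≠ -2)
  refine (mul_eq_zero.1 (traceDeriv_mul_eq_zero_of_card hc htr hdet p hs ht h2 hf S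
    (fun j hj => Finset.mem_range.1 (Finset.mem_filter.1 hj).1) ?_
    (fun j hj => by rw [hT]; exact (Finset.mem_filter.1 hj).2))).resolve_right hxt
  have hbad : ((Finset.range p).filter (fun j : ℕ =>
      ¬(trace (R t) + (j : k) * x ≠ 2 ∧ trace (R t) + (j : k) * x ≠ -2))).card ≤ 2 := by
    refine le_trans (Finset.card_le_card_of_injOn
      (t := ({2, -2} : Finset k)) (fun j : ℕ => trace (R t) + (j : k) * x) ?_ ?_)
      Finset.card_le_two
    · intro j hj
      simp only [Finset.coe_filter, Set.mem_ofPred_eq, not_and_or, not_not] at hj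
      simpa using hj.2
    · intro a ha b hb hab
      simp only [Finset.coe_filter, Set.mem_ofPred_eq, Finset.mem_range] at ha hb
      exact CharP.natCast_injOn_Iio k p ha.1 hb.1
        (mul_right_cancel₀ hxt (add_left_cancel hab))
  have := Finset.card_filter_add_card_filter_not (s := Finset.range p)
    (fun j : ℕ => trace (R t) + (j : k) * x ≠ 2 ∧ trace (R t) + (j : k) * x ≠ -2)
  simp only [Finset.card_range] at this
  change S.card + _ = p at this
  omega

include hc htr hdet in
theorem traceDeriv_eq_zero [Fact p.Prime] [H.Normal] (hp : p ≠ 2) (hspan : TraceSpans R H)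
    (hns : p = 5 → ∃ g, ∀ e : ℕ, det (R g) ≠ (e : k) ^ 2)
    (hf : ∀ h ∈ H, trace (R h) ≠ 2 → trace (R h) ≠ -2 → traceDeriv R c h = 0)
    {s : G} (hs : s ∈ H) : traceDeriv R c s = 0 := by
  by_cases h2 : trace (R s) = 2
  · exact traceDeriv_eq_zero_of_trace_eq_two hc htr hdet p hp hspan hns hf hs h2
  by_cases hm2 : trace (R s) = -2
  · have hA := congrArg trace (mul_self_of_det_one (hdet s hs))
    rw [trace_sub, trace_smul, smul_eq_mul, trace_one, ← map_mul, hm2] at hA
    have hss : trace (R (s * s)) = 2 := by rw [hA]; norm_num [Fintype.card_fin]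
    have hsq := traceDeriv_eq_zero_of_trace_eq_two hc htr hdet p hp hspan hns hf (mul_mem hs hs) hss
    have h := traceDeriv_mul_add hc htr hdet (s := s) (t := s) hs
    rw [hsq, inv_mul_cancel, traceDeriv_one hc, hm2] at h
    have h2ne : (2 : k) ≠ 0 := by
      have := natCast_ne_of_lt (k := k) p
        (lt_of_le_of_ne (Fact.out : p.Prime).two_le (Ne.symm hp)) (Fact.out : p.Prime).pos
        two_ne_zero
      exact_mod_cast this
    exact (mul_eq_zero.1 (show (2 * 2 : k) * traceDeriv R c s = 0 by
      linear_combination h)).resolve_left (mul_ne_zero h2ne h2ne)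
  exact hf s hs h2 hm2

theorem traceSpans_range_linearCombination (hspan : TraceSpans R H) :
    LinearMap.range (Finsupp.linearCombination k (fun h : H => R (h : G))) = ⊤ := by
  by_contra hne
  obtain ⟨φ, hφ0, hφ⟩ := Submodule.exists_le_ker_of_lt_top _ (lt_top_iff_ne_top.2 hne)
  set X : Matrix (Fin 2) (Fin 2) k := Matrix.of fun i j => φ (Matrix.single j i 1)
  have hXA : ∀ A, φ A = trace (X * A) := fun A => by
    conv_lhs => rw [Matrix.matrix_eq_sum_single A]
    have hs : ∀ i j, Matrix.single i j (A i j) = A i j • Matrix.single i j (1 : k) := fun i j => by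
      ext a b; simp [Matrix.single]
    simp only [Fin.sum_univ_two, map_add]
    rw [hs 0 0, hs 0 1, hs 1 0, hs 1 1]
    simp only [map_smul, smul_eq_mul]
    simp [X, Matrix.trace_fin_two, Matrix.mul_apply, Fin.sum_univ_two]
    ring
  have hX : X = 0 := hspan X fun h hh => by
    rw [← hXA]
    exact hφ ⟨Finsupp.single ⟨h, hh⟩ 1, by simp⟩
  exact hφ0 (LinearMap.ext fun A => by rw [hXA, hX, zero_mul, trace_zero, LinearMap.zero_apply])

include hc hdet in
/-- A cocycle with vanishing trace derivative is a coboundary on `H`. -/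
theorem exists_eq_twAct_sub_of_traceDeriv_eq_zero (hspan : TraceSpans R H)
    (hf : ∀ h ∈ H, traceDeriv R c h = 0) : ∃ T, ∀ h ∈ H, c h = twAct (R h) T - T := by
  set Φ := Finsupp.linearCombination k (fun h : H => R (h : G))
  set Ψ := Finsupp.linearCombination k (fun h : H => c h * R (h : G))
  have hker : ∀ a, Φ a = 0 → Ψ a = 0 := by
    intro a ha
    refine hspan _ fun t ht => ?_
    set Z := c t * R t
    have hlin : (Matrix.traceLinearMap (Fin 2) k k ∘ₗ LinearMap.mulRight k (R t)) ∘ₗ Ψ
        = -((Matrix.traceLinearMap (Fin 2) k k ∘ₗ LinearMap.mulRight k Z) ∘ₗ Φ) := by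
      refine Finsupp.lhom_ext fun h r => ?_
      have h0 := hf _ (mul_mem h.2 ht)
      rw [traceDeriv, hc, map_mul, twAct, add_mul, trace_add,
        show R (h : G) * c t * (R (h : G)).adjugate * (R h * R t) =
          R (h : G) * c t * ((R (h : G)).adjugate * R h) * R t by simp only [mul_assoc],
        Matrix.adjugate_mul, hdet _ h.2, one_smul, mul_one, ← mul_assoc, mul_assoc (R (h : G))] at h0
      simp only [mul_assoc] at h0
      simp [Φ, Ψ, Z, mul_assoc]
      linear_combination r * h0
    have := LinearMap.congr_fun hlin a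
    simpa [ha] using this
  have hrange := traceSpans_range_linearCombination hspan
  obtain ⟨σ, hσ⟩ := Φ.exists_rightInverse_of_surjective hrange
  set D := Ψ ∘ₗ σ
  have hDR : ∀ h ∈ H, D (R h) = c h * R h := by
    intro h hh
    have h1 : Φ (σ (R h) - Finsupp.single ⟨h, hh⟩ 1) = 0 := by
      have := LinearMap.congr_fun hσ (R h)
      simp only [LinearMap.comp_apply, LinearMap.id_apply] at this
      rw [map_sub, this]; simp [Φ]
    have h2 := hker _ h1
    rw [map_sub, sub_eq_zero] at h2
    simp [D, h2, Ψ]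
  have hspan' : Submodule.span k (Set.range (fun h : H => R (h : G))) = ⊤ := by
    rw [← Finsupp.range_linearCombination]; exact hrange
  have hD : ∀ A B, D (A * B) = D A * B + A * D B := by
    have step : ∀ t ∈ H, ∀ A, D (A * R t) = D A * R t + A * D (R t) := by
      intro t ht A
      have : D ∘ₗ LinearMap.mulRight k (R t) =
          LinearMap.mulRight k (R t) ∘ₗ D + LinearMap.mulRight k (D (R t)) := by
        refine LinearMap.ext_on hspan' ?_
        rintro _ ⟨⟨h, hh⟩, rfl⟩
        simp only [LinearMap.comp_apply, LinearMap.add_apply, LinearMap.mulRight_apply]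
        rw [← map_mul, hDR _ (mul_mem hh ht), hDR _ hh, hDR _ ht, hc, map_mul, twAct, add_mul,
          show R h * c t * (R h).adjugate * (R h * R t) =
            R h * c t * ((R h).adjugate * R h) * R t by simp only [mul_assoc],
          Matrix.adjugate_mul, hdet _ hh, one_smul, mul_one]
        simp only [mul_assoc]
      exact LinearMap.congr_fun this A
    intro A B
    have : D ∘ₗ LinearMap.mulLeft k A =
        LinearMap.mulLeft k (D A) + LinearMap.mulLeft k A ∘ₗ D := by
      refine LinearMap.ext_on hspan' ?_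
      rintro _ ⟨⟨h, hh⟩, rfl⟩
      exact step h hh A
    exact LinearMap.congr_fun this B
  obtain ⟨T, hT⟩ := exists_inner_of_derivation D hD
  refine ⟨-T, fun h hh => ?_⟩
  have e := hDR h hh
  rw [hT] at e
  calc c h = c h * R h * (R h).adjugate := by
        rw [mul_assoc, Matrix.mul_adjugate, hdet h hh, one_smul, mul_one]
    _ = (T * R h - R h * T) * (R h).adjugate := by rw [e]
    _ = twAct (R h) (-T) - -T := by
        rw [twAct, sub_mul, mul_assoc T, Matrix.mul_adjugate, hdet h hh, one_smul, mul_one,
          mul_neg, neg_mul]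
        abel

include hc htr hdet in
/-- **Taylor–Wiles cocycle lemma.** -/
theorem exists_trace_zero_eq_twAct_sub [Fact p.Prime] [H.Normal] (hp : p ≠ 2) (hspan : TraceSpans R H)
    (hns : p = 5 → ∃ g, ∀ e : ℕ, det (R g) ≠ (e : k) ^ 2)
    (hf : ∀ h ∈ H, trace (R h) ≠ 2 → trace (R h) ≠ -2 → traceDeriv R c h = 0) :
    ∃ T, trace T = 0 ∧ ∀ g, c g = twAct (R g) T - T := by
  obtain ⟨T₀, hT₀⟩ := exists_eq_twAct_sub_of_traceDeriv_eq_zero hc hdet hspan
    fun h hh => traceDeriv_eq_zero hc htr hdet p hp hspan hns hf hh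
  have h2ne : (2 : k) ≠ 0 := by
    have := natCast_ne_of_lt (k := k) p
      (lt_of_le_of_ne (Fact.out : p.Prime).two_le (Ne.symm hp)) (Fact.out : p.Prime).pos
      two_ne_zero
    exact_mod_cast this
  set T := T₀ - (trace T₀ / 2) • (1 : Matrix (Fin 2) (Fin 2) k)
  have hTtr : trace T = 0 := by
    simp [T, trace_sub, trace_smul, trace_one]
    field_simp
    ring
  have hT : ∀ h ∈ H, c h = twAct (R h) T - T := fun h hh => by
    rw [hT₀ h hh]
    simp [T, twAct, mul_sub, sub_mul, Matrix.mul_adjugate, hdet h hh]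
  refine ⟨T, hTtr, fun g => ?_⟩
  set X := c g - (twAct (R g) T - T)
  have hXtr : trace X = 0 := by simp [X, trace_sub, trace_twAct, htr, hTtr]
  have hcomm : ∀ h ∈ H, R h * X = X * R h := by
    intro h hh
    have hh' : g⁻¹ * h * g ∈ H := by
      simpa using Subgroup.Normal.conj_mem inferInstance h hh g⁻¹
    have e1 := hc h g
    have e2 := hc g (g⁻¹ * h * g)
    rw [show g * (g⁻¹ * h * g) = h * g by group, e1, hT h hh, hT _ hh', twAct_sub (R g),
      ← twAct_mul, ← map_mul, show g * (g⁻¹ * h * g) = h * g by group, map_mul, twAct_mul] at e2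
    have hX : twAct (R h) X = X := by
      simp only [X, twAct_sub]
      rw [← sub_eq_zero] at e2 ⊢
      rw [← e2]; abel
    calc R h * X = R h * X * ((R h).adjugate * R h) := by
          rw [Matrix.adjugate_mul, hdet h hh, one_smul, mul_one]
      _ = twAct (R h) X * R h := by simp only [twAct, mul_assoc]
      _ = X * R h := by rw [hX]
  have hall : ∀ Y, X * Y = Y * X := fun Y => sub_eq_zero.1 (hspan _ fun h hh => by
    rw [sub_mul, trace_sub, mul_assoc X, Matrix.trace_mul_comm X, mul_assoc Y, mul_assoc Y,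
      hcomm h hh, sub_self])
  have hX0 : X = 0 := by
    have h01 := hall (Matrix.single 0 1 1)
    have h10 := hall (Matrix.single 1 0 1)
    have a := congr_fun (congr_fun h01 0) 1
    have b := congr_fun (congr_fun h01 0) 0
    have d := congr_fun (congr_fun h10 0) 0
    simp [Matrix.mul_apply, Matrix.single] at a b d
    rw [trace_fin_two] at hXtr
    have h00 : X 0 0 = 0 := (mul_eq_zero.1 (show (2 : k) * X 0 0 = 0 by
      linear_combination hXtr + a)).resolve_left h2ne
    ext i j
    fin_cases i <;> fin_cases j <;>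
      first
      | simpa using h00
      | simpa using d
      | simpa using b.symm
      | (simp; linear_combination hXtr - h00)
  exact sub_eq_zero.1 hX0

end Group

end Fermat.Agent.TWGroup
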